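import Fermat.Agent.S44.ES.Sub

/-!
# S44 / E-side : the abstract theorem      (helper5)

`KummerData` of `η² = ξ (4 ξ² + β ξ + 4 κ)`, `β` a unit, `w κ = p m`, `m > 0` an integer (multiplicative reduction, `p ∣ w κ`).
`τ` acts unipotently on the `p`-torsion with fixed line `⟨T0⟩`, and the coordinates of the multiples of `T0` have valuation in `(1/n) ℤ`, `p ∤ n`.
Then there is a `p`-torsion point `Q` with `σ (ξ Q) ≠ ξ Q` and `2 n w (σ (ξ Q) - ξ Q) ∈ ℤ`.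

Proof: `X Y (σ x - x)² = (σ x x - κ)²`, `X = ξ (τ Q + Q)`, `Y = ξ (τ Q - Q)`.
-/

set_option autoImplicit false

namespace Fermat.Agent.S44.ES

open Fermat.Agent.S05 Fermat.Agent.S05.NoTorsion

variable {K : Type*} [Field K] {G : Type*} [AddCommGroup G]

theorem exists_zsmul_inv {p : ℕ} (hp : p.Prime) {T0 : G} (hT0 : p • T0 = 0) {i : ℤ}
    (hi : i • T0 ≠ 0) : ∃ j : ℤ, j • (i • T0) = T0 := by
  have hnd : ¬ (p : ℤ) ∣ i := by
    rintro ⟨k, rfl⟩
    apply hi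
    rw [mul_comm, mul_zsmul, natCast_zsmul, hT0, smul_zero]
  have hcop : IsCoprime (p : ℤ) i := (Nat.prime_iff_prime_int.mp hp).coprime_iff_not_dvd.mpr hnd
  obtain ⟨a, b, hab⟩ := hcop
  refine ⟨b, ?_⟩
  rw [← mul_zsmul]
  have : b * i = 1 - a * p := by linarith
  rw [this, sub_zsmul, one_zsmul, mul_zsmul, natCast_zsmul, hT0, smul_zero]
  simp

theorem exists_nsmul_two {p : ℕ} (hp : Odd p) {g : G} (hg : p • g = 0) :
    ∃ n : ℕ, n • (g + g) = g := by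
  obtain ⟨m, rfl⟩ := hp
  refine ⟨m + 1, ?_⟩
  have : (m + 1) • (g + g) = (2 * m + 1) • g + g := by
    simp only [add_smul, mul_smul, one_smul, two_smul, smul_add]
    abel
  rw [this, hg, zero_add]

variable {D : KummerData K G} {v : RVal K}

theorem xi_ne_zero {p : ℕ} (hp : Odd p) {g : G} (hg : p • g = 0) {x : K} (hx : D.ξ g = some x) :
    x ≠ 0 := by
  rintro rfl
  have h1 := D.η_sq g 0 hx
  rw [zero_mul] at h1
  have h2 : D.η g = 0 := by simpa using h1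
  have h3 := eq_zero_of_odd_nsmul hp hg (D.dbl_zero g h2)
  rw [h3, (D.ξ_eq_none 0).mpr rfl] at hx
  exact absurd hx (by simp)

/-- valuations of the integral torsion coordinates -/
theorem w_int_of_torsion (h2 : v.EQ 2 0) (hβ : v.EQ D.β 0) {p : ℕ} (hp : Odd p) {m : ℤ}
    (hm : 0 < m) (hκ : v.EQ D.κ ((p : ℝ) * m)) {g : G} (hg : p • g = 0) {x : K}
    (hx : D.ξ g = some x) (hx0 : v.GE x 0) :
    ∃ k : ℤ, v.EQ x k ∧ 2 * k ≠ p * m := by
  have hxne := xi_ne_zero hp hg hx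
  have hp0 : 0 < p := hp.pos
  have hpR : (0 : ℝ) < p := by exact_mod_cast hp0
  have hmR : (0 : ℝ) < m := by exact_mod_cast hm
  have hh : (0 : ℝ) < (p : ℝ) * m := by positivity
  rcases RVal.GE_or_LE (v := v) x 0 with hpos | hle
  · obtain ⟨-, -, j, hj⟩ := val_of_torsion D hh h2 hβ hκ hx hpos hp hg
    refine ⟨2 * m * j, ⟨hxne, ?_⟩, ?_⟩
    · have : (p : ℝ) * (v.w x - 2 * m * j) = 0 := by linarith
      rcases mul_eq_zero.mp this with h | h
      · exact absurd h hpR.ne'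
      · push_cast; linarith
    · intro h
      obtain ⟨b, rfl⟩ := hp
      have h3 : m * (4 * j - (2 * b + 1)) = 0 := by push_cast at h; linarith
      rcases mul_eq_zero.mp h3 with h4 | h4
      · omega
      · omega
  · refine ⟨0, ⟨hxne, ?_⟩, ?_⟩
    · have := hx0.le_w hxne
      have h' := hle.2
      push_cast
      linarith
    · have : (0 : ℤ) < p * m := by positivity
      omega

theorem abstract_eside (D : KummerData K G) (v : RVal K) (σ : K →+* K) (τ : G →+ G)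
    (hξ : ∀ g, D.ξ (τ g) = (D.ξ g).map σ) (hσw : ∀ x, v.w (σ x) = v.w x)
    (h2 : v.EQ 2 0) {p : ℕ} (hp : p.Prime) (hodd : Odd p)
    (hβ : v.EQ D.β 0) {m : ℤ} (hm : 0 < m) (hκ : v.EQ D.κ ((p : ℝ) * m))
    (T0 : G) (hT0 : p • T0 = 0) (hτ0 : τ T0 = T0)
    {n : ℕ} (hn : ¬ p ∣ n)
    (hY : ∀ (i : ℤ) (y : K), D.ξ (i • T0) = some y → y ≠ 0 → ∃ k : ℤ, (n : ℝ) * v.w y = k)
    (h3 : ∀ Q, p • Q = 0 → ∃ i : ℤ, τ Q - Q = i • T0)
    (h4 : ∀ Q, p • Q = 0 → τ Q = Q → ∃ i : ℤ, Q = i • T0)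
    (h6 : ∃ Q, p • Q = 0 ∧ τ Q ≠ Q)
    (hpos : ∃ Q x, p • Q = 0 ∧ D.ξ Q = some x ∧ v.GT x 0) :
    ∃ Q x, p • Q = 0 ∧ D.ξ Q = some x ∧ σ x ≠ x ∧
      ∃ (N : ℕ) (k : ℤ), ¬ p ∣ N ∧ (N : ℝ) * v.w (σ x - x) = k := by
  have hβ0 : v.GE D.β 0 := hβ.GE le_rfl
  have hmR : (0 : ℝ) < m := by exact_mod_cast hm
  have hpR : (0 : ℝ) < p := by exact_mod_cast hp.pos
  have hκ0 : v.GE D.κ 0 := hκ.GE (by positivity)
  have hτE : ∀ g, InE1 D v g → InE1 D v (τ g) := by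
    intro g hg y hy
    rw [hξ] at hy
    cases hx : D.ξ g with
    | none => rw [hx] at hy; exact absurd hy (by simp)
    | some x =>
      rw [hx] at hy
      obtain rfl : σ x = y := Option.some.inj hy
      obtain ⟨h0, h1⟩ := hg x hx
      exact ⟨(map_ne_zero σ).mpr h0, by rw [hσw]; exact h1⟩
  have hτi : ∀ i : ℤ, τ (i • T0) = i • T0 := fun i => by rw [map_zsmul, hτ0]
  -- Step A
  obtain ⟨Q, hQ, hτQ, hQE⟩ : ∃ Q, p • Q = 0 ∧ τ Q ≠ Q ∧ ¬ InE1 D v Q := by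
    obtain ⟨P1, hP1, hτP1⟩ := h6
    by_cases hE : InE1 D v P1
    · obtain ⟨Q, x, hQ, hx, hxpos⟩ := hpos
      have hQE : ¬ InE1 D v Q := not_inE1_of_GE hx (hxpos.GE le_rfl)
      by_cases hτQ : τ Q = Q
      · exfalso
        obtain ⟨j, hj⟩ := h4 Q hQ hτQ
        obtain ⟨i, hi⟩ := h3 P1 hP1
        have hT : InE1 D v (i • T0) := by rw [← hi]; exact (hτE P1 hE).sub hβ0 hκ0 hE
        have hne : i • T0 ≠ 0 := by rw [← hi]; exact sub_ne_zero.mpr hτP1
        obtain ⟨i', hi'⟩ := exists_zsmul_inv hp hT0 hne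
        apply hQE
        rw [hj, ← hi']
        exact (hT.zsmul hβ0 hκ0 i').zsmul hβ0 hκ0 j
      · exact ⟨Q, hQ, hτQ, hQE⟩
    · exact ⟨P1, hP1, hτP1, hE⟩
  -- Step B
  obtain ⟨i, hi⟩ := h3 Q hQ
  have hTne : i • T0 ≠ 0 := by rw [← hi]; exact sub_ne_zero.mpr hτQ
  have hTp : p • (i • T0) = 0 := by rw [smul_comm, hT0, smul_zero]
  have hτQp : p • τ Q = 0 := by rw [← map_nsmul, hQ, map_zero]
  have hQ0 : Q ≠ 0 := by
    rintro rfl
    exact hτQ (map_zero τ)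
  cases hx : D.ξ Q with
  | none => exact absurd ((D.ξ_eq_none Q).mp hx) hQ0
  | some x =>
    have hτx : D.ξ (τ Q) = some (σ x) := by rw [hξ, hx]; rfl
    have hxG : v.GE x 0 := GE_of_not_inE1 hx hQE
    have hneg : τ Q ≠ -Q := by
      intro h
      -- `Q + Q = - i • T0`
      have h1 : Q + Q = (-i) • T0 := by
        rw [neg_zsmul, ← hi, h]; abel
      obtain ⟨n', hn'⟩ := exists_nsmul_two hodd hQ
      apply hτQ
      rw [← hn', h1, map_nsmul, hτi]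
    have hσx : σ x ≠ x := by
      intro h
      rcases D.eq_or_eq_neg (τ Q) Q (by rw [hτx, hx, h]) with h' | h'
      · exact hτQ h'
      · exact hneg h'
    obtain ⟨X, Y, hX, hYY, hprod, -⟩ := D.addsub (τ Q) Q (σ x) x hτx hx hσx
    refine ⟨Q, x, hQ, hx, hσx, ?_⟩
    -- `Y`
    rw [hi] at hYY
    have hY0 : Y ≠ 0 := xi_ne_zero hodd hTp hYY
    obtain ⟨kY, hkY⟩ := hY i Y hYY hY0
    -- `X`
    have hgp : p • (τ Q + Q) = 0 := by rw [smul_add, hτQp, hQ, add_zero]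
    have hgE : ¬ InE1 D v (τ Q + Q) := by
      intro hE
      have e1 : τ (τ Q + Q) - (τ Q + Q) = i • T0 + i • T0 := by
        have : τ (τ Q) = τ Q + i • T0 := by
          have h5 : τ Q = Q + i • T0 := by rw [← hi]; abel
          conv_lhs => rw [h5, map_add, hτi]
        rw [map_add, this, ← hi]; abel
      have h2T : InE1 D v (i • T0 + i • T0) := by rw [← e1]; exact (hτE _ hE).sub hβ0 hκ0 hE
      obtain ⟨n', hn'⟩ := exists_nsmul_two hodd hTp
      have hT : InE1 D v (i • T0) := by rw [← hn']; exact h2T.nsmul hβ0 hκ0 n'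
      have h2Q : InE1 D v (Q + Q) := by
        have : Q + Q = (τ Q + Q) - i • T0 := by rw [← hi]; abel
        rw [this]; exact hE.sub hβ0 hκ0 hT
      obtain ⟨n'', hn''⟩ := exists_nsmul_two hodd hQ
      apply hQE
      rw [← hn'']; exact h2Q.nsmul hβ0 hκ0 n''
    obtain ⟨kX, hkX, -⟩ := w_int_of_torsion h2 hβ hodd hm hκ hgp hX (GE_of_not_inE1 hX hgE)
    obtain ⟨kx, hkx, hne⟩ := w_int_of_torsion h2 hβ hodd hm hκ hQ hx hxG
    -- `σ x * x - κ`
    have hσxE : v.EQ (σ x) kx := ⟨(map_ne_zero σ).mpr hkx.1, by rw [hσw]; exact hkx.2⟩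
    have hmul : v.EQ (σ x * x) ((2 * kx : ℤ) : ℝ) := (hσxE.mul hkx).of_eq (by push_cast; ring)
    have hκ' : v.EQ D.κ ((p * m : ℤ) : ℝ) := hκ.of_eq (by push_cast; ring)
    obtain ⟨M, hM⟩ : ∃ M : ℤ, v.EQ (σ x * x - D.κ) M := by
      rcases lt_or_gt_of_ne hne with h | h
      · exact ⟨2 * kx, hmul.sub_GT (hκ'.GT (by exact_mod_cast h))⟩
      · exact ⟨p * m, hκ'.GT_sub (hmul.GT (by exact_mod_cast h))⟩
    have hd : σ x - x ≠ 0 := sub_ne_zero.mpr hσx
    have hw : v.w X + v.w Y + 2 * v.w (σ x - x) = 2 * M := by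
      have h5 := congrArg v.w hprod
      rw [v.map_mul _ _ (mul_ne_zero hkX.1 hY0) (pow_ne_zero 2 hd), v.map_mul _ _ hkX.1 hY0,
        RVal.w_pow hd, RVal.w_pow hM.1, hM.2] at h5
      push_cast at h5
      linarith
    refine ⟨2 * n, n * (2 * M - kX) - kY, ?_, ?_⟩
    · intro h
      rcases (Nat.Prime.dvd_mul hp).mp h with h' | h'
      · have := Nat.le_of_dvd (by norm_num) h'
        obtain ⟨b, rfl⟩ := hodd
        have := hp.two_le
        omega
      · exact hn h'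
    · rw [hkX.2] at hw
      push_cast
      have : 2 * v.w (σ x - x) = 2 * M - kX - v.w Y := by linarith
      calc 2 * (n : ℝ) * v.w (σ x - x) = n * (2 * v.w (σ x - x)) := by ring
        _ = n * (2 * M - kX) - n * v.w Y := by rw [this]; ring
        _ = n * (2 * M - kX) - kY := by rw [hkY]

end Fermat.Agent.S44.ES
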