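import Fermat.Agent.Lib.DivPoly
import Fermat.Agent.S05.Defs

/-!
# S44 / E-side : a `p`-torsion point outside the identity component      (helper5)

At a node `e` modulo `κ` (`f(e) = 0`, `g(e) = κ²`) the pairs `pq n`, `n ≥ 2`, are `≡ (0,0)`, so `w (half(e)) ≥ h`.
As `half = - p ∏ (X - x_i)` and `w p < h`, some root has `w (x_i - e) > 0`.
-/

set_option autoImplicit false

namespace Fermat.Agent.S44.ES

open Fermat.Agent.S05 Fermat.Agent.DivPoly Polynomial WeierstrassCurve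

section pq

variable {K : Type*} [Field K] {v : RVal K}

theorem GE_mul_int {x y : K} {h : ℝ} (hx : v.GE x h) (hy : v.GE y 0) : v.GE (x * y) h :=
  (hx.mul hy).mono (by linarith)

theorem GE_int_mul {x y : K} {h : ℝ} (hx : v.GE x 0) (hy : v.GE y h) : v.GE (x * y) h :=
  (hx.mul hy).mono (by linarith)

theorem GE_int_pow {x : K} (hx : v.GE x 0) (n : ℕ) : v.GE (x ^ n) 0 :=
  (hx.pow n).mono (by simp)

theorem pq_node {b₂ b₄ b₆ b₈ e : K} {h : ℝ} (hh : 0 ≤ h)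
    (hb2 : v.GE b₂ 0) (hb4 : v.GE b₄ 0) (hb6 : v.GE b₆ 0) (hb8 : v.GE b₈ 0) (he0 : v.GE e 0)
    (he : 4 * e ^ 3 + b₂ * e ^ 2 + 2 * b₄ * e + b₆ = 0)
    (hg : v.GE (e ^ 4 - b₄ * e ^ 2 - 2 * b₆ * e - b₈) h) (n : ℕ) :
    (v.GE (pq b₂ b₄ b₆ b₈ e n).1 0 ∧ v.GE (pq b₂ b₄ b₆ b₈ e n).2 0) ∧
      (2 ≤ n → v.GE (pq b₂ b₄ b₆ b₈ e n).1 h ∧ v.GE (pq b₂ b₄ b₆ b₈ e n).2 h) := by
  have two : v.GE (2 : K) 0 := RVal.GE_ofNat 2
  have four : v.GE (4 : K) 0 := RVal.GE_ofNat 4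
  have one : v.GE (1 : K) 0 := RVal.EQ_one.GE le_rfl
  -- general estimates
  have dupN_int : ∀ p q : K, v.GE p 0 → v.GE q 0 → v.GE (dupN b₄ b₆ b₈ p q) 0 := by
    intro p q hp hq
    unfold dupN
    exact (((GE_int_pow hp 4).sub (GE_mul_int (GE_mul_int hb4 (GE_int_pow hp 2)) (GE_int_pow hq 2))).sub
      (GE_mul_int (GE_mul_int (GE_mul_int two hb6) hp) (GE_int_pow hq 3))).sub
      (GE_mul_int hb8 (GE_int_pow hq 4))
  have dupD_aux : ∀ p q : K, v.GE p 0 → v.GE q 0 →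
      v.GE (4 * p ^ 3 + b₂ * p ^ 2 * q + 2 * b₄ * p * q ^ 2 + b₆ * q ^ 3) 0 := by
    intro p q hp hq
    exact (((GE_mul_int four (GE_int_pow hp 3)).add (GE_mul_int (GE_mul_int hb2 (GE_int_pow hp 2)) hq)).add
      (GE_mul_int (GE_mul_int (GE_mul_int two hb4) hp) (GE_int_pow hq 2))).add
      (GE_mul_int hb6 (GE_int_pow hq 3))
  have sumN_est : ∀ (t : ℝ) (p₁ q₁ p₂ q₂ : K), v.GE p₁ t → v.GE q₁ t → v.GE p₁ 0 → v.GE q₁ 0 →
      v.GE p₂ 0 → v.GE q₂ 0 → v.GE (sumN b₂ b₄ b₆ p₁ q₁ p₂ q₂) t := by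
    intro t p₁ q₁ p₂ q₂ hp1 hq1 hp1' hq1' hp2 hq2
    unfold sumN
    have hpp : v.GE (p₁ * p₂) t := GE_mul_int hp1 hp2
    have hqq : v.GE (q₁ * q₂) t := GE_mul_int hq1 hq2
    have hqq' : v.GE (q₁ * q₂) 0 := GE_mul_int hq1' hq2
    have hs : v.GE (p₁ * q₂ + p₂ * q₁) 0 := (GE_mul_int hp1' hq2).add (GE_mul_int hp2 hq1')
    refine (((GE_int_mul (GE_mul_int two hs) hpp).add (GE_mul_int (GE_int_mul hb2 hpp) hqq')).add
      (GE_int_mul (GE_mul_int hb4 hs) hqq)).add ?_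
    rw [sq]
    exact GE_int_mul hb6 (GE_mul_int hqq hqq')
  have hlf_est : ∀ (t : ℝ) (p₁ q₁ p₂ q₂ : K), v.GE p₁ t → v.GE q₁ t →
      v.GE p₂ 0 → v.GE q₂ 0 → v.GE (hlf p₁ q₁ p₂ q₂) t := by
    intro t p₁ q₁ p₂ q₂ hp1 hq1 hp2 hq2
    unfold hlf
    exact (GE_mul_int hp1 hq2).sub (GE_int_mul hp2 hq1)
  refine pq_induction (motive := fun n =>
    (v.GE (pq b₂ b₄ b₆ b₈ e n).1 0 ∧ v.GE (pq b₂ b₄ b₆ b₈ e n).2 0) ∧
      (2 ≤ n → v.GE (pq b₂ b₄ b₆ b₈ e n).1 h ∧ v.GE (pq b₂ b₄ b₆ b₈ e n).2 h)) ?_ ?_ ?_ ?_ n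
  · rw [pq_zero]
    exact ⟨⟨one, RVal.GE_zero 0⟩, fun h => absurd h (by norm_num)⟩
  · rw [pq_one]
    exact ⟨⟨he0, one⟩, fun h => absurd h (by norm_num)⟩
  · intro b hb ⟨⟨hp, hq⟩, hsm⟩
    rw [pq_even]
    refine ⟨⟨dupN_int _ _ hp hq, ?_⟩, fun _ => ?_⟩
    · unfold dupD
      exact GE_mul_int hq (dupD_aux _ _ hp hq)
    · rcases Nat.lt_or_ge b 2 with hb2' | hb2'
      · obtain rfl : b = 1 := by omega
        rw [pq_one]
        refine ⟨?_, ?_⟩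
        · have : dupN b₄ b₆ b₈ e 1 = e ^ 4 - b₄ * e ^ 2 - 2 * b₆ * e - b₈ := by unfold dupN; ring
          show v.GE (dupN b₄ b₆ b₈ e 1) h
          rw [this]; exact hg
        · have : dupD b₂ b₄ b₆ e 1 = 0 := by unfold dupD; linear_combination he
          show v.GE (dupD b₂ b₄ b₆ e 1) h
          rw [this]; exact RVal.GE_zero _
      · obtain ⟨hp', hq'⟩ := hsm hb2'
        refine ⟨?_, ?_⟩
        · set p := (pq b₂ b₄ b₆ b₈ e b).1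
          set q := (pq b₂ b₄ b₆ b₈ e b).2
          have : dupN b₄ b₆ b₈ p q = p * (p ^ 3 - b₄ * p * q ^ 2 - 2 * b₆ * q ^ 3) - q * (b₈ * q ^ 3) := by
            unfold dupN; ring
          show v.GE (dupN b₄ b₆ b₈ p q) h
          rw [this]
          refine (GE_mul_int hp' ?_).sub (GE_mul_int hq' (GE_mul_int hb8 (GE_int_pow hq 3)))
          exact ((GE_int_pow hp 3).sub (GE_mul_int (GE_mul_int hb4 hp) (GE_int_pow hq 2))).sub
            (GE_mul_int (GE_mul_int two hb6) (GE_int_pow hq 3))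
        · unfold dupD
          exact GE_mul_int hq' (dupD_aux _ _ hp hq)
  · intro b hb ⟨⟨hp2, hq2⟩, _⟩ ⟨⟨hp1, hq1⟩, hsm⟩
    obtain ⟨hp1', hq1'⟩ := hsm (by omega)
    rw [pq_odd]
    have hl0 := hlf_est 0 _ _ _ _ hp1 hq1 hp2 hq2
    have hlh := hlf_est h _ _ _ _ hp1' hq1' hp2 hq2
    have hl2 : ∀ t : ℝ, v.GE (hlf (pq b₂ b₄ b₆ b₈ e (b + 1)).1 (pq b₂ b₄ b₆ b₈ e (b + 1)).2
        (pq b₂ b₄ b₆ b₈ e b).1 (pq b₂ b₄ b₆ b₈ e b).2) t →
        v.GE (hlf (pq b₂ b₄ b₆ b₈ e (b + 1)).1 (pq b₂ b₄ b₆ b₈ e (b + 1)).2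
        (pq b₂ b₄ b₆ b₈ e b).1 (pq b₂ b₄ b₆ b₈ e b).2 ^ 2) t := by
      intro t ht
      rw [sq]; exact GE_mul_int ht hl0
    refine ⟨⟨?_, hl2 0 hl0⟩, fun _ => ⟨?_, hl2 h hlh⟩⟩
    · exact (sumN_est 0 _ _ _ _ hp1 hq1 hp1 hq1 hp2 hq2).sub (GE_int_mul he0 (hl2 0 hl0))
    · exact (sumN_est h _ _ _ _ hp1' hq1' hp1 hq1 hp2 hq2).sub (GE_int_mul he0 (hl2 h hlh))

theorem half_node (W : WeierstrassCurve K) {e : K} {h : ℝ} (hh : 0 ≤ h)
    (hb2 : v.GE W.b₂ 0) (hb4 : v.GE W.b₄ 0) (hb6 : v.GE W.b₆ 0) (hb8 : v.GE W.b₈ 0)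
    (he0 : v.GE e 0) (he : 4 * e ^ 3 + W.b₂ * e ^ 2 + 2 * W.b₄ * e + W.b₆ = 0)
    (hg : v.GE (e ^ 4 - W.b₄ * e ^ 2 - 2 * W.b₆ * e - W.b₈) h) {b : ℕ} (hb : 1 ≤ b) :
    v.GE ((half W b).eval e) h := by
  have h1 := pq_node hh hb2 hb4 hb6 hb8 he0 he hg (b + 1)
  have h0 := pq_node hh hb2 hb4 hb6 hb8 he0 he hg b
  obtain ⟨hp1, hq1⟩ := h1.2 (by omega)
  unfold half
  rw [eval_sub, eval_mul, eval_mul, eval_num, eval_num, eval_den, eval_den]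
  exact (GE_mul_int hp1 h0.1.2).sub (GE_int_mul h0.1.1 hq1)

/-- `g(e) = κ²` at a 2-torsion abscissa -/
theorem gX_node (W : WeierstrassCurve K) (h2 : (2 : K) ≠ 0) {e : K}
    (he : 4 * e ^ 3 + W.b₂ * e ^ 2 + 2 * W.b₄ * e + W.b₆ = 0) :
    e ^ 4 - W.b₄ * e ^ 2 - 2 * W.b₆ * e - W.b₈ = ((W.b₄ + W.b₂ * e + 6 * e ^ 2) / 2) ^ 2 := by
  have h4 : (4 : K) ≠ 0 := by
    have : (4 : K) = 2 * 2 := by norm_num
    rw [this]; exact mul_ne_zero h2 h2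
  have hrel := W.b_relation
  field_simp
  linear_combination (-(8 * e + W.b₂)) * he - hrel

theorem LE_multiset_prod (s : Multiset K) (hs : ∀ a ∈ s, v.LE a 0) : v.LE s.prod 0 := by
  induction s using Multiset.induction_on with
  | empty => rw [Multiset.prod_zero]; exact RVal.EQ_one.LE le_rfl
  | cons a s ih =>
    rw [Multiset.prod_cons]
    exact ((hs a (Multiset.mem_cons_self a s)).mul
      (ih fun b hb => hs b (Multiset.mem_cons_of_mem hb))).mono (by linarith)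

end pq

section root

variable {F : Type*} [Field F] [DecidableEq F] [IsAlgClosed F] {v : RVal F}

theorem exists_torsion_pos (W : WeierstrassCurve.Affine F) (hΔ : W.Δ ≠ 0) {b : ℕ}
    (hn : (2 * (b : F) + 1) ≠ 0) {e : F} {h : ℝ} (hlc : v.w (2 * (b : F) + 1) < h)
    (hhalf : v.GE ((half W b).eval e) h) :
    ∃ (x y : F) (hxy : W.Nonsingular x y),
      (2 * b + 1) • Affine.Point.some x y hxy = 0 ∧ v.GT (x - e) 0 := by
  by_contra hcon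
  have hroots : ∀ a ∈ (half W b).roots, v.LE (e - a) 0 := by
    intro a ha
    rcases RVal.GE_or_LE (v := v) (a - e) 0 with h1 | h1
    · exfalso
      obtain ⟨y, hy⟩ := exists_nonsingular W hΔ a
      exact hcon ⟨a, y, hy, (odd_nsmul_eq_zero_iff W hy b).mpr (isRoot_of_mem_roots ha), h1⟩
    · have := h1.neg
      rwa [neg_sub] at this
  have hsplit := (IsAlgClosed.splits (half W b))
  have h9 := C_leadingCoeff_mul_prod_multiset_X_sub_C (splits_iff_card_roots.mp hsplit)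
  rw [leadingCoeff_half W hn] at h9
  have h10 : (half W b).eval e = -(2 * (b : F) + 1) * ((half W b).roots.map fun a => e - a).prod := by
    conv_lhs => rw [← h9]
    rw [eval_mul, eval_C, eval_multiset_prod, Multiset.map_map]
    simp
  have h11 : v.LE (((half W b).roots.map fun a => e - a).prod) 0 := by
    apply LE_multiset_prod
    intro c hc
    obtain ⟨a, ha, rfl⟩ := Multiset.mem_map.mp hc
    exact hroots a ha
  have h12 : v.LE ((half W b).eval e) (v.w (2 * (b : F) + 1) + 0) := by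
    rw [h10]
    exact ((RVal.EQ_self hn).neg.LE le_rfl).mul h11
  exact hhalf.not_LT h12.1 (by have := h12.2; linarith)

end root

end Fermat.Agent.S44.ES
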