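import Fermat.Agent.S44.ES.Abs
import Fermat.Agent.S44.ES.Root
import Fermat.Agent.S13.FreyFacts
import Fermat.Agent.S33.Val.Cyc

/-!
# S44 / E-side : the Frey curve at `p ∣ a b c`      (helper5)

`eside` : if `τ ∈ I_p` acts on `E[p]` by a nontrivial transvection with fixed line `⟨T0⟩`, `T0` being fixed by the stabiliser of `ζ_p` in `I_p`,
then some `α ∈ ℚ(E[p])` has `τ α ≠ α` and `N w(τ α - α) ∈ ℤ` with `p ∤ N`.   (This contradicts `RAM'` in the très ramifié case.)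
-/

set_option autoImplicit false

namespace Fermat.Agent.S44.ES

open Fermat.Agent.S05 Fermat.Agent.S13 Fermat.Agent.S33 Fermat.Agent.S55.B ExtCitation
open Fermat.Agent.S55 (Dq Iq GQ Qb)
open WeierstrassCurve WeierstrassCurve.Affine WeierstrassCurve.Affine.Point

variable (P : FreyPackage)

/-- the prime `p` of a Frey package -/
def qP : Nat.Primes := ⟨P.p, P.pp⟩

theorem wq_unit {n : ℤ} (hn : ¬ (P.p : ℤ) ∣ n) : (wq (qP P)).EQ (n : Qb) 0 :=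
  rval_int_unit (qP P).2 (Fermat.Agent.S55.D.liesOverPrime_primeLocalPlace (qP P))
    (fun _ hx => wq_nonneg_iff (qP P) hx) hn

theorem wq_two : (wq (qP P)).EQ (2 : Qb) 0 := by
  have := wq_unit P (n := 2) (by
    intro h
    have h' : P.p ∣ 2 := by exact_mod_cast h
    have := Nat.le_of_dvd (by norm_num) h'
    have := P.hp5
    omega)
  simpa using this

theorem wq_int_pos {c : ℤ} (hc0 : c ≠ 0) (hc : (P.p : ℤ) ∣ c) :
    ∃ m : ℤ, 0 < m ∧ (wq (qP P)).w (c : Qb) = m := by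
  have hc0' : (c : Qb) ≠ 0 := by exact_mod_cast hc0
  obtain ⟨m, hm⟩ := w_int (qP P) (z := (c : Qb)) (mem_Fx.2 fun σ _ => map_intCast σ c) hc0'
  refine ⟨m, ?_, hm⟩
  have h1 : (wq (qP P)).GT (c : Qb) 0 := (GT_intCast_iff (qP P)).mpr hc
  have h2 := h1.lt_w hc0'
  rw [hm] at h2
  exact_mod_cast h2

theorem eside_aux {e : Qb}
    (he : 4 * e ^ 3 + (P.freyCurve⁄Qb).b₂ * e ^ 2 + 2 * (P.freyCurve⁄Qb).b₄ * e +
      (P.freyCurve⁄Qb).b₆ = 0)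
    (hσe : ∀ σ : GQ, σ e = e) (he0 : (wq (qP P)).GE e 0)
    (hβ : (wq (qP P)).EQ ((P.freyCurve⁄Qb).b₂ + 12 * e) 0)
    {c : ℤ} (hc0 : c ≠ 0) (hcp : (P.p : ℤ) ∣ c)
    (hκ : (wq (qP P)).EQ (((P.freyCurve⁄Qb).b₄ + (P.freyCurve⁄Qb).b₂ * e + 6 * e ^ 2) / 2)
      ((P.p : ℝ) * (wq (qP P)).w (c : Qb)))
    {τ : GQ} (hτ : τ ∈ Iq (qP P)) (T0 : (P.freyCurve⁄Qb).Point) (hT0 : P.p • T0 = 0)
    (hfix : ∀ σ ∈ Iq (qP P), (∀ ζ : Qb, ζ ^ P.p = 1 → σ ζ = ζ) → σ • T0 = T0)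
    (hτ0 : τ • T0 = T0)
    (h3 : ∀ Q : (P.freyCurve⁄Qb).Point, P.p • Q = 0 → ∃ i : ℤ, τ • Q - Q = i • T0)
    (h4 : ∀ Q : (P.freyCurve⁄Qb).Point, P.p • Q = 0 → τ • Q = Q → ∃ i : ℤ, Q = i • T0)
    (h6 : ∃ Q : (P.freyCurve⁄Qb).Point, P.p • Q = 0 ∧ τ • Q ≠ Q) :
    ∃ α : Qb, (∀ σ : GQ, (∀ Q : (P.freyCurve⁄Qb).Point, P.p • Q = 0 → σ • Q = Q) → σ α = α) ∧
      τ α ≠ α ∧ ∃ (N : ℕ) (k : ℤ), ¬ P.p ∣ N ∧ (N : ℝ) * (wq (qP P)).w (τ α - α) = k := by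
  classical
  set v := wq (qP P) with hv
  have h2 : v.EQ (2 : Qb) 0 := wq_two P
  obtain ⟨m, hm, hmw⟩ := wq_int_pos P hc0 hcp
  rw [hmw] at hκ
  have hmR : (1 : ℝ) ≤ m := by exact_mod_cast hm
  have hp5 : (5 : ℝ) ≤ P.p := by exact_mod_cast P.hp5
  set D := kummerOf (P.freyCurve⁄Qb) e h2.1 he with hD
  obtain ⟨ζ, hζ⟩ := cycAux_exists_prim (qP P)
  obtain ⟨hn0, hnle⟩ := relIndex_stab_zeta (qP P) hζ
  have hn : ¬ P.p ∣ (stab (Iq (qP P)) ζ).relIndex (Iq (qP P)) := by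
    intro h
    have h1 := Nat.le_of_dvd (Nat.pos_of_ne_zero hn0) h
    have h2 : ((qP P : Nat.Primes) : ℕ) = P.p := rfl
    have := P.hp5
    omega
  -- the hypothesis on `Y`
  have hY : ∀ (i : ℤ) (y : Qb), D.ξ (i • T0) = Option.some y → y ≠ 0 →
      ∃ k : ℤ, ((stab (Iq (qP P)) ζ).relIndex (Iq (qP P)) : ℝ) * v.w y = k := by
    intro i y hy hy0
    refine w_of_relIndex (qP P) (stab_le _ _) hn0 (mem_Fx.2 ?_) hy0
    intro σ hσ
    obtain ⟨hσI, hσζ⟩ := mem_stab.1 hσ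
    have h1 : σ • T0 = T0 := by
      refine hfix σ hσI fun ζ' hζ' => ?_
      have : NeZero ((qP P : Nat.Primes) : ℕ) := ⟨(qP P).2.ne_zero⟩
      obtain ⟨k, -, rfl⟩ := hζ.eq_pow_of_pow_eq_one hζ'
      rw [map_pow, hσζ]
    have h5 : Point.map σ.toAlgHom (i • T0) = i • T0 := by
      rw [map_zsmul, ← algEquiv_smul_def, h1]
    have h7 := kummer_ξ_map σ h2.1 he (hσe σ) (i • T0)
    rw [h5] at h7
    rw [← hD, hy] at h7
    exact (Option.some.inj h7).symm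
  -- a torsion point outside the identity component
  have hpos : ∃ (Q : (P.freyCurve⁄Qb).Point) (x : Qb), P.p • Q = 0 ∧ D.ξ Q = Option.some x ∧ v.GT x 0 := by
    obtain ⟨b, hb⟩ := P.hp_odd
    have hb1 : 1 ≤ b := by have := P.hp5; omega
    have hpb : (2 * (b : Qb) + 1) = ((P.p : ℕ) : Qb) := by rw [hb]; push_cast; ring
    have hp0 : ((P.p : ℕ) : Qb) ≠ 0 := by exact_mod_cast P.hp0
    have hint : ∀ n : ℤ, v.GE (n : Qb) 0 := fun n => RVal.GE_intCast n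
    have h8 : v.EQ (8 : Qb) 0 := by
      have := (h2.pow 3).of_eq (b := 0) (by ring)
      norm_num at this
      exact this
    have h16 : v.EQ (16 : Qb) 0 := by
      have := (h2.pow 4).of_eq (b := 0) (by ring)
      norm_num at this
      exact this
    have hb2 : v.GE (P.freyCurve⁄Qb).b₂ 0 := by
      rw [frey_b₂]
      have := hint (P.b ^ P.p - P.a ^ P.p)
      push_cast at this
      exact this
    have hAB : v.GE (-((P.a : Qb) ^ P.p) * ((P.b : Qb) ^ P.p)) 0 := by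
      have := hint (-(P.a ^ P.p) * (P.b ^ P.p))
      push_cast at this
      exact this
    have hb4 : v.GE (P.freyCurve⁄Qb).b₄ 0 := by
      rw [frey_b₄, div_eq_mul_inv]
      exact (hAB.mul (h8.inv.GE le_rfl)).mono (by linarith)
    have hb6 : v.GE (P.freyCurve⁄Qb).b₆ 0 := by rw [frey_b₆]; exact RVal.GE_zero 0
    have hb8 : v.GE (P.freyCurve⁄Qb).b₈ 0 := by
      rw [frey_b₈, frey_a₄, div_eq_mul_inv]
      have h17 : v.GE (-((P.a : Qb) ^ P.p) * ((P.b : Qb) ^ P.p) * (16 : Qb)⁻¹) 0 :=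
        (hAB.mul (h16.inv.GE le_rfl)).mono (by linarith)
      exact (h17.sq.mono (by linarith)).neg
    have hg : v.GE (e ^ 4 - (P.freyCurve⁄Qb).b₄ * e ^ 2 - 2 * (P.freyCurve⁄Qb).b₆ * e -
        (P.freyCurve⁄Qb).b₈) (2 * ((P.p : ℝ) * m)) := by
      rw [gX_node (P.freyCurve⁄Qb) h2.1 he]
      exact (hκ.GE le_rfl).sq
    have hhalf := half_node (v := v) (P.freyCurve⁄Qb) (h := 2 * ((P.p : ℝ) * m)) (by positivity)
      hb2 hb4 hb6 hb8 he0 he hg hb1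
    obtain ⟨x, y, hxy, hQ, hx⟩ := exists_torsion_pos (v := v) (P.freyCurve⁄Qb).toAffine
      (frey_Δ_ne_zero P) (b := b) (by rw [hpb]; exact hp0) (e := e) (h := 2 * ((P.p : ℝ) * m))
      (by
        rw [hpb]
        have : v.w ((P.p : ℕ) : Qb) = 1 := wq_q (qP P)
        rw [this]
        nlinarith) hhalf
    exact ⟨Point.some x y hxy, x - e, by rw [hb]; exact hQ, rfl, hx⟩
  obtain ⟨Q, x, hQ, hx, hσx, N, k, hN, hk⟩ := abstract_eside D v (τ : Qb →+* Qb)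
    (Point.map τ.toAlgHom) (kummer_ξ_map τ h2.1 he (hσe τ))
    (fun z => pres_Dq (qP P) τ (Iq_le_Dq (qP P) hτ) z) h2 P.pp P.hp_odd hβ hm hκ T0 hT0 hτ0 hn hY
    h3 h4 h6 hpos
  refine ⟨x, ?_, hσx, N, k, hN, hk⟩
  intro σ hσ
  have h7 := kummer_ξ_map σ h2.1 he (hσe σ) Q
  rw [← algEquiv_smul_def, hσ Q hQ, ← hD, hx] at h7
  exact (Option.some.inj h7).symm

/-- **E-side** -/
theorem eside (hp : (P.p : ℤ) ∣ P.a * P.b * P.c)
    {τ : GQ} (hτ : τ ∈ Iq (qP P)) (T0 : (P.freyCurve⁄Qb).Point) (hT0 : P.p • T0 = 0)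
    (hfix : ∀ σ ∈ Iq (qP P), (∀ ζ : Qb, ζ ^ P.p = 1 → σ ζ = ζ) → σ • T0 = T0)
    (hτ0 : τ • T0 = T0)
    (h3 : ∀ Q : (P.freyCurve⁄Qb).Point, P.p • Q = 0 → ∃ i : ℤ, τ • Q - Q = i • T0)
    (h4 : ∀ Q : (P.freyCurve⁄Qb).Point, P.p • Q = 0 → τ • Q = Q → ∃ i : ℤ, Q = i • T0)
    (h6 : ∃ Q : (P.freyCurve⁄Qb).Point, P.p • Q = 0 ∧ τ • Q ≠ Q) :
    ∃ α : Qb, (∀ σ : GQ, (∀ Q : (P.freyCurve⁄Qb).Point, P.p • Q = 0 → σ • Q = Q) → σ α = α) ∧
      τ α ≠ α ∧ ∃ (N : ℕ) (k : ℤ), ¬ P.p ∣ N ∧ (N : ℝ) * (wq (qP P)).w (τ α - α) = k := by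
  set v := wq (qP P) with hv
  have hqZ : Prime (P.p : ℤ) := Nat.prime_iff_prime_int.mp P.pp
  have h2 : v.EQ (2 : Qb) 0 := wq_two P
  have h4' : v.EQ (4 : Qb) 0 := by
    have := (h2.pow 2).of_eq (b := 0) (by ring)
    norm_num at this
    exact this
  have h16 : v.EQ (16 : Qb) 0 := by
    have := (h2.pow 4).of_eq (b := 0) (by ring)
    norm_num at this
    exact this
  have hFLT := hFLT_Qb P
  have hab := isCoprime_of_gcd P.hgcdab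
  have hac := isCoprime_of_gcd P.hgcdac
  have hp0 := P.hp0
  by_cases hc : (P.p : ℤ) ∣ P.c
  · -- node at `x = a^p / 4`
    have he : 4 * ((P.a : Qb) ^ P.p / 4) ^ 3 + (P.freyCurve⁄Qb).b₂ * ((P.a : Qb) ^ P.p / 4) ^ 2 +
        2 * (P.freyCurve⁄Qb).b₄ * ((P.a : Qb) ^ P.p / 4) + (P.freyCurve⁄Qb).b₆ = 0 := by
      rw [frey_b₂, frey_b₄, frey_b₆]; ring
    have hne : ((P.a * P.c : ℤ) : Qb) ≠ 0 := by exact_mod_cast mul_ne_zero P.ha0 P.hc0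
    refine eside_aux P he (fun σ => by rw [map_div₀, map_pow, map_intCast, map_ofNat]) ?_ ?_
      (c := P.a * P.c) (mul_ne_zero P.ha0 P.hc0) (Dvd.dvd.mul_left hc _) ?_ hτ T0 hT0 hfix hτ0
      h3 h4 h6
    · rw [div_eq_mul_inv]
      have h1 : v.GE ((P.a : Qb) ^ P.p) 0 := by
        have := RVal.GE_intCast (v := v) (P.a ^ P.p)
        push_cast at this
        exact this
      exact (h1.mul (h4'.inv.GE le_rfl)).mono (by linarith)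
    · have := wq_unit P (n := P.c ^ P.p + P.a ^ P.p) (not_dvd_pow_add hqZ hac hc hp0)
      have h3 : (P.freyCurve⁄Qb).b₂ + 12 * ((P.a : Qb) ^ P.p / 4) =
          ((P.c ^ P.p + P.a ^ P.p : ℤ) : Qb) := by
        rw [frey_b₂]; push_cast; rw [← hFLT]; ring
      rw [h3]; exact this
    · have h3 : ((P.freyCurve⁄Qb).b₄ + (P.freyCurve⁄Qb).b₂ * ((P.a : Qb) ^ P.p / 4) +
          6 * ((P.a : Qb) ^ P.p / 4) ^ 2) / 2 = ((P.a * P.c : ℤ) : Qb) ^ P.p / 16 := by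
        rw [frey_b₂, frey_b₄]; push_cast; rw [mul_pow, ← hFLT]; ring
      rw [h3]
      exact (((RVal.EQ_self hne).pow P.p).div h16).of_eq (by ring)
  · have hdvd : (P.p : ℤ) ∣ P.a * P.b := (hqZ.dvd_or_dvd hp).resolve_right hc
    have he : 4 * (0 : Qb) ^ 3 + (P.freyCurve⁄Qb).b₂ * (0 : Qb) ^ 2 +
        2 * (P.freyCurve⁄Qb).b₄ * (0 : Qb) + (P.freyCurve⁄Qb).b₆ = 0 := by
      rw [frey_b₆]; ring
    have hβ : (P.freyCurve⁄Qb).b₂ + 12 * (0 : Qb) = ((P.b ^ P.p - P.a ^ P.p : ℤ) : Qb) := by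
      rw [frey_b₂]; push_cast; ring
    have hκ : ((P.freyCurve⁄Qb).b₄ + (P.freyCurve⁄Qb).b₂ * (0 : Qb) + 6 * (0 : Qb) ^ 2) / 2 =
        -(((P.a * P.b : ℤ) : Qb) ^ P.p / 16) := by
      rw [frey_b₄]; push_cast; rw [mul_pow]; ring
    have hne : ((P.a * P.b : ℤ) : Qb) ≠ 0 := by exact_mod_cast mul_ne_zero P.ha0 P.hb0
    refine eside_aux P he (fun σ => _root_.map_zero σ) (RVal.GE_zero 0) ?_
      (c := P.a * P.b) (mul_ne_zero P.ha0 P.hb0) hdvd ?_ hτ T0 hT0 hfix hτ0 h3 h4 h6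
    · rw [hβ]
      rcases hqZ.dvd_or_dvd hdvd with h | h
      · exact wq_unit P (not_dvd_pow_sub hqZ hab h hp0)
      · exact wq_unit P (not_dvd_pow_sub' hqZ hab h hp0)
    · rw [hκ]
      exact (((RVal.EQ_self hne).pow P.p).div h16).neg.of_eq (by ring)

end Fermat.Agent.S44.ES
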