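import Fermat.Agent.S05.Abstract

/-!
# S44 / E-side : the kernel of reduction `E₁ = {w ξ < 0} ∪ {0}` is a subgroup      (helper5)

Abstract `KummerData` level (S05).  `InE1 D v g` : `g = 0` or `w (ξ g) < 0`.
-/

set_option autoImplicit false

namespace Fermat.Agent.S44.ES

open Fermat.Agent.S05 Fermat.Agent.S05.NoTorsion

variable {K : Type*} [Field K] {G : Type*} [AddCommGroup G] {D : KummerData K G} {v : RVal K}

/-- the kernel of reduction -/
def InE1 (D : KummerData K G) (v : RVal K) (g : G) : Prop :=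
  ∀ x, D.ξ g = some x → x ≠ 0 ∧ v.w x < 0

theorem inE1_zero : InE1 D v 0 := by
  intro x hx
  rw [(D.ξ_eq_none 0).mpr rfl] at hx
  exact absurd hx (by simp)

theorem InE1.neg {g : G} (h : InE1 D v g) : InE1 D v (-g) := by
  intro x hx
  rw [D.ξ_neg] at hx
  exact h x hx

theorem InE1.tt_GT {g : G} (h : InE1 D v g) : v.GT (tt D g) 0 := by
  cases hx : D.ξ g with
  | none => rw [tt_none hx]; exact RVal.GT_zero 0
  | some x =>
    obtain ⟨h0, h1⟩ := h x hx
    rw [tt_some hx]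
    exact Or.inr (by rw [RVal.w_inv h0]; linarith)

/-- criterion -/
theorem inE1_of_tt {g : G} {θ : ℝ} (hθ : 0 < θ) (h0 : ∀ X, D.ξ g = some X → X ≠ 0)
    (h : v.GE (tt D g) θ) : InE1 D v g := by
  intro x hx
  have hx0 := h0 x hx
  refine ⟨hx0, ?_⟩
  rw [tt_some hx] at h
  have := h.le_w (inv_ne_zero hx0)
  rw [RVal.w_inv hx0] at this
  linarith

/-- auxiliary: the case `w (tt a) ≥ w (tt g)` -/
theorem inE1_add_sub_aux (hβ : v.GE D.β 0) (hκ : v.GE D.κ 0) {a g : G} {x : K} {θ : ℝ}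
    (hθ : 0 < θ) (hx : D.ξ g = some x) (ht : v.EQ x⁻¹ θ)
    (ha0 : ∀ y, D.ξ a = some y → y ≠ 0) (hs : v.GE (tt D a) θ) :
    InE1 D v (a + g) ∧ InE1 D v (a - g) := by
  have hx0 : x ≠ 0 := by
    intro h
    exact ht.1 (by rw [h, inv_zero])
  have htG : v.GE x⁻¹ θ := ht.GE le_rfl
  obtain ⟨s1, s2⟩ := step hβ hκ hθ hx ht ha0 hs
  have hx' : D.ξ (-g) = some x := by rw [D.ξ_neg]; exact hx
  obtain ⟨s1', -⟩ := step hβ hκ hθ hx' ht ha0 hs
  rw [← sub_eq_add_neg] at s1'
  have two : v.GE (2 : K) 0 := RVal.GE_ofNat 2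
  have hsum : v.GE (tt D (a + g) + tt D (a - g)) θ := by
    have e : tt D (a + g) + tt D (a - g) =
        (tt D (a + g) + tt D (a - g) - 2 * x⁻¹ - 2 * tt D a) + (2 * x⁻¹ + 2 * tt D a) := by ring
    rw [e]
    refine (s2.mono (by linarith)).add ?_
    exact ((two.mul htG).mono (by linarith)).add ((two.mul hs).mono (by linarith))
  have hprod : v.GE (tt D (a + g) * tt D (a - g)) (2 * θ) := by
    cases hy : D.ξ a with
    | none =>
      have ha : a = 0 := (D.ξ_eq_none a).mp hy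
      subst ha
      rw [zero_add, zero_sub, tt_neg, tt_some hx]
      exact (htG.mul htG).mono (by linarith)
    | some y =>
      have hy0 := ha0 y hy
      rw [tt_some hy] at hs
      by_cases hne : y = x
      · subst hne
        rcases D.eq_or_eq_neg a g (hy.trans hx.symm) with h | h
        · rw [h, sub_self, tt_zero, mul_zero]; exact RVal.GE_zero _
        · rw [h, neg_add_cancel, tt_zero, zero_mul]; exact RVal.GE_zero _
      · obtain ⟨X, Y, hX, hY, hprod, -⟩ := D.addsub a g y x hy hx hne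
        have hX0 := s1 X hX
        have hY0 := s1' Y hY
        rw [tt_some hX, tt_some hY]
        have hu : v.EQ (1 - D.κ * y⁻¹ * x⁻¹) 0 := EQ_one_sub hθ hκ hs htG
        have halg : X⁻¹ * Y⁻¹ * (1 - D.κ * y⁻¹ * x⁻¹) ^ 2 = (x⁻¹ - y⁻¹) ^ 2 := by
          field_simp
          linear_combination (-1 : K) * hprod
        have h6 : v.GE ((x⁻¹ - y⁻¹) ^ 2) (2 * θ) := (htG.sub hs).sq
        have hu2 : v.EQ ((1 - D.κ * y⁻¹ * x⁻¹) ^ 2) 0 := hu.sq.of_eq (by ring)
        exact (RVal.GE.of_mul_eq_left halg hu2 h6).mono (by linarith)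
  obtain ⟨h1, h2⟩ := RVal.GE_of_sum_prod hsum hprod
  exact ⟨inE1_of_tt hθ s1 h1, inE1_of_tt hθ s1' h2⟩

theorem InE1.add_sub (hβ : v.GE D.β 0) (hκ : v.GE D.κ 0) {a g : G} (ha : InE1 D v a)
    (hg : InE1 D v g) : InE1 D v (a + g) ∧ InE1 D v (a - g) := by
  cases hx : D.ξ g with
  | none =>
    have : g = 0 := (D.ξ_eq_none g).mp hx
    subst this
    rw [add_zero, sub_zero]; exact ⟨ha, ha⟩
  | some x =>
    cases hy : D.ξ a with
    | none =>
      have : a = 0 := (D.ξ_eq_none a).mp hy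
      subst this
      rw [zero_add, zero_sub]; exact ⟨hg, hg.neg⟩
    | some y =>
      obtain ⟨hx0, hxw⟩ := hg x hx
      obtain ⟨hy0, hyw⟩ := ha y hy
      have htx : v.EQ x⁻¹ (- v.w x) := (RVal.EQ_self hx0).inv
      have hty : v.EQ y⁻¹ (- v.w y) := (RVal.EQ_self hy0).inv
      rcases le_total (v.w y) (v.w x) with hle | hle
      · -- `w (tt a) ≥ w (tt g)`
        refine inE1_add_sub_aux hβ hκ (θ := - v.w x) (by linarith) hx htx
          (fun z hz => (ha z hz).1) ?_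
        rw [tt_some hy]
        exact hty.GE (by linarith)
      · obtain ⟨h1, h2⟩ := inE1_add_sub_aux hβ hκ (θ := - v.w y) (by linarith) hy hty
          (fun z hz => (hg z hz).1) (by rw [tt_some hx]; exact htx.GE (by linarith))
        refine ⟨by rwa [add_comm], ?_⟩
        have := h2.neg
        rwa [neg_sub] at this

theorem InE1.add (hβ : v.GE D.β 0) (hκ : v.GE D.κ 0) {a g : G} (ha : InE1 D v a)
    (hg : InE1 D v g) : InE1 D v (a + g) := (ha.add_sub hβ hκ hg).1

theorem InE1.sub (hβ : v.GE D.β 0) (hκ : v.GE D.κ 0) {a g : G} (ha : InE1 D v a)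
    (hg : InE1 D v g) : InE1 D v (a - g) := (ha.add_sub hβ hκ hg).2

theorem InE1.nsmul (hβ : v.GE D.β 0) (hκ : v.GE D.κ 0) {g : G} (hg : InE1 D v g) (n : ℕ) :
    InE1 D v (n • g) := by
  induction n with
  | zero => rw [zero_smul]; exact inE1_zero
  | succ n ih => rw [succ_nsmul]; exact ih.add hβ hκ hg

theorem InE1.zsmul (hβ : v.GE D.β 0) (hκ : v.GE D.κ 0) {g : G} (hg : InE1 D v g) (n : ℤ) :
    InE1 D v (n • g) := by
  obtain ⟨m, rfl | rfl⟩ := n.eq_nat_or_neg
  · rw [natCast_zsmul]; exact hg.nsmul hβ hκ m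
  · rw [neg_zsmul, natCast_zsmul]; exact (hg.nsmul hβ hκ m).neg

/-- not in `E₁` : the coordinate is integral -/
theorem GE_of_not_inE1 {g : G} {x : K} (hx : D.ξ g = some x) (h : ¬ InE1 D v g) : v.GE x 0 := by
  by_contra hcon
  apply h
  intro y hy
  rw [hx] at hy
  obtain rfl := Option.some.inj hy
  have hx0 : x ≠ 0 := fun h0 => hcon (Or.inl h0)
  exact ⟨hx0, by
    by_contra h1
    exact hcon (Or.inr (not_lt.mp h1))⟩

theorem not_inE1_of_GE {g : G} {x : K} (hx : D.ξ g = some x) (h : v.GE x 0) : ¬ InE1 D v g := by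
  intro hE
  obtain ⟨h0, h1⟩ := hE x hx
  have := h.le_w h0
  linarith

end Fermat.Agent.S44.ES
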